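import Fermat.Agent.S16.Defs
import Fermat.Agent.S20.C0_helper516
import Fermat.Agent.S22T.DeltaInt
import Fermat.Prelude.Def_ModularForm_HeckeOperatorForms
import Fermat.Prelude.Thm_ModularFormClass_qCoeff_heckeT

/-!
# S16, work package L1 (helper547): level one facts

Exact skeleton shapes of `origin/helper556:Fermat/Agent/S16/Skeleton.lean`, section L1:

* `SF_top_fourteen` : `S₁₄(SL₂ℤ) = 0`
* `MF_top_two`      : `M₂(SL₂ℤ) = 0`
* `exists_rho`      : `E₄` has a zero (`ρ = e^{2πi/3}`)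
* `evRho_int`       : `H(ρ) ∈ ℤ Δ(ρ)^j` for level one `H` of weight `12 j` with integral
                      `q`-expansion
* `exists_tau`      : integrality of Ramanujan's `τ`, `τ(p²) = τ(p)² - p¹¹`
-/

set_option autoImplicit false

noncomputable section

namespace Fermat.Agent.S16.H547

open UpperHalfPlane ModularForm CongruenceSubgroup MatrixGroups ModularFormClass EisensteinSeries
open Fermat.Agent.S20 (MF SF)
open scoped Manifold

local notation "Δ" => ModularForm.discriminant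

/-! ## Vanishing of small spaces -/

/-- `M₂(SL₂ℤ) = 0`. -/
theorem MF_top_two : MF (⊤ : Subgroup SL(2, ℤ)) 2 = ⊥ := by
  rw [eq_bot_iff]
  intro f hf
  obtain ⟨g, rfl⟩ := Fermat.Agent.S20.C0h516.mem_MF_top_iff_exists.mp hf
  have h0 : g = 0 := by
    have hr := levelOne_weight_two_rank_zero
    rw [rank_zero_iff_forall_zero] at hr
    exact hr g
  rw [h0]
  simp

/-- `S₁₄(SL₂ℤ) = 0`. -/
theorem SF_top_fourteen : SF (⊤ : Subgroup SL(2, ℤ)) 14 = ⊥ := by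
  rw [eq_bot_iff]
  intro f hf
  obtain ⟨g, rfl⟩ := Fermat.Agent.S20.C0h516.mem_SF_top_iff_exists.mp hf
  have hr : Module.rank ℂ (ModularForm 𝒮ℒ ((14 : ℤ) - 12)) = 0 := by
    have h2 : ((14 : ℤ) - 12) = 2 := by norm_num
    rw [h2]
    exact levelOne_weight_two_rank_zero
  rw [rank_zero_iff_forall_zero] at hr
  have h0 : g = 0 := by
    have := hr (CuspForm.discriminantEquiv g)
    exact (LinearEquiv.map_eq_zero_iff _).mp this
  rw [h0]
  simp

/-! ## The elliptic point `ρ` -/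

/-- The elliptic point `ρ = e^{2πi/3} = -1/2 + (√3/2) i`. -/
def rhoPt : ℍ := ⟨-1 / 2 + (Real.sqrt 3 / 2 : ℝ) * Complex.I, by simp⟩

theorem coe_rhoPt : (rhoPt : ℂ) = -1 / 2 + (Real.sqrt 3 / 2 : ℝ) * Complex.I := rfl

theorem rhoPt_sq_add : (rhoPt : ℂ) ^ 2 + (rhoPt : ℂ) + 1 = 0 := by
  rw [coe_rhoPt]
  have h3 : ((Real.sqrt 3 : ℝ) : ℂ) ^ 2 = 3 := by
    norm_cast
    exact Real.sq_sqrt (by norm_num)
  push_cast
  linear_combination (Complex.I ^ 2 / 4) * h3 + (3 / 4 : ℂ) * Complex.I_sq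

theorem levelOne_smul_eq {k : ℤ} (f : ModularForm 𝒮ℒ k) (γ : SL(2, ℤ)) (z : ℍ) :
    f (γ • z) = denom γ z ^ k * f z := by
  have hsl : (f : ℍ → ℂ) ∣[k] γ = f := SlashInvariantFormClass.slash_action_eq f _ ⟨γ, rfl⟩
  have h1 := congrFun hsl z
  rw [SL_slash_apply] at h1
  have hd : denom γ z ≠ 0 := denom_ne_zero _ _
  rw [← h1, mul_comm, mul_assoc, ← zpow_add₀ hd]
  simp

theorem coe_T_smul_rhoPt : ((ModularGroup.T • rhoPt : ℍ) : ℂ) = (rhoPt : ℂ) + 1 := by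
  rw [modular_T_smul, coe_vadd]
  push_cast
  ring

theorem S_T_smul_rhoPt : ModularGroup.S • (ModularGroup.T • rhoPt) = rhoPt := by
  ext
  rw [modular_S_smul, coe_mk, coe_T_smul_rhoPt]
  have h := rhoPt_sq_add
  have hne : (rhoPt : ℂ) + 1 ≠ 0 := by
    intro h1
    have : (rhoPt : ℂ) = -1 := by linear_combination h1
    rw [this] at h
    norm_num at h
  have hne0 : (rhoPt : ℂ) ≠ 0 := by
    intro h1
    rw [h1] at h
    norm_num at h
  rw [inv_eq_iff_eq_inv]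
  apply eq_inv_of_mul_eq_one_left
  linear_combination -h

/-- `E₄(ρ) = 0`. -/
theorem E₄_rhoPt : E₄ rhoPt = 0 := by
  have h1 := levelOne_smul_eq E₄ ModularGroup.S (ModularGroup.T • rhoPt)
  have h2 := levelOne_smul_eq E₄ ModularGroup.T rhoPt
  rw [S_T_smul_rhoPt, ModularGroup.denom_S, coe_T_smul_rhoPt, h2] at h1
  have hT : denom ModularGroup.T rhoPt = 1 := by
    rw [ModularGroup.denom_apply]
    simp [ModularGroup.T]
  rw [hT, one_zpow, one_mul] at h1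
  have hr := rhoPt_sq_add
  have h4 : ((rhoPt : ℂ) + 1) ^ (4 : ℤ) = -(rhoPt : ℂ) - 1 := by
    norm_cast
    have h2 : ((rhoPt : ℂ) + 1) ^ 2 = (rhoPt : ℂ) := by linear_combination hr
    rw [show (4 : ℕ) = 2 * 2 by norm_num, pow_mul, h2]
    linear_combination hr
  rw [h4] at h1
  have hne : (rhoPt : ℂ) + 2 ≠ 0 := by
    intro h1
    have : (rhoPt : ℂ) = -2 := by linear_combination h1
    rw [this] at hr
    norm_num at hr
  have : ((rhoPt : ℂ) + 2) * E₄ rhoPt = 0 := by linear_combination h1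
  rcases mul_eq_zero.mp this with h' | h'
  · exact absurd h' hne
  · exact h'

theorem exists_rho : ∃ ρ : ℍ, (E₄ : ℍ → ℂ) ρ = 0 := ⟨rhoPt, E₄_rhoPt⟩

/-! ## Integral power series -/

/-- A complex power series with integer coefficients. -/
def IsIntPS (P : PowerSeries ℂ) : Prop :=
  ∃ Q : PowerSeries ℤ, P = Q.map (Int.castRingHom ℂ)

theorem isIntPS_iff (P : PowerSeries ℂ) :
    IsIntPS P ↔ ∀ n : ℕ, ∃ m : ℤ, P.coeff n = (m : ℂ) := by
  constructor
  · rintro ⟨Q, rfl⟩ n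
    exact ⟨Q.coeff n, by simp⟩
  · intro h
    choose c hc using h
    refine ⟨PowerSeries.mk c, ?_⟩
    ext n
    simp [hc n]

theorem IsIntPS.sub {P Q : PowerSeries ℂ} (hP : IsIntPS P) (hQ : IsIntPS Q) : IsIntPS (P - Q) := by
  obtain ⟨P', rfl⟩ := hP
  obtain ⟨Q', rfl⟩ := hQ
  exact ⟨P' - Q', by rw [map_sub]⟩

theorem IsIntPS.mul {P Q : PowerSeries ℂ} (hP : IsIntPS P) (hQ : IsIntPS Q) : IsIntPS (P * Q) := by
  obtain ⟨P', rfl⟩ := hP
  obtain ⟨Q', rfl⟩ := hQ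
  exact ⟨P' * Q', by rw [map_mul]⟩

theorem IsIntPS.pow {P : PowerSeries ℂ} (hP : IsIntPS P) (n : ℕ) : IsIntPS (P ^ n) := by
  obtain ⟨P', rfl⟩ := hP
  exact ⟨P' ^ n, by rw [map_pow]⟩

theorem isIntPS_C_int (m : ℤ) : IsIntPS (PowerSeries.C (m : ℂ)) :=
  ⟨PowerSeries.C m, by simp⟩

/-- Division by an integral power series `q + ⋯` preserves integrality. -/
theorem isIntPS_of_mul (A : PowerSeries ℤ) (hA0 : A.coeff 0 = 0) (hA1 : A.coeff 1 = 1)
    (P : PowerSeries ℂ) (h : IsIntPS (A.map (Int.castRingHom ℂ) * P)) : IsIntPS P := by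
  obtain ⟨B, hB⟩ := h
  -- `A = X * U` with `U` a unit
  have hXA : (PowerSeries.X : PowerSeries ℤ) ∣ A := by
    rw [PowerSeries.X_dvd_iff, ← PowerSeries.coeff_zero_eq_constantCoeff_apply]
    exact hA0
  obtain ⟨U, rfl⟩ := hXA
  have hU0 : PowerSeries.constantCoeff U = 1 := by
    rw [← PowerSeries.coeff_zero_eq_constantCoeff_apply]
    have := hA1
    rwa [show (1 : ℕ) = 0 + 1 from rfl, PowerSeries.coeff_succ_X_mul] at this
  have hUu : IsUnit U := by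
    rw [PowerSeries.isUnit_iff_constantCoeff, hU0]
    exact isUnit_one
  obtain ⟨u, rfl⟩ := hUu
  -- `B = X * B'`
  rw [map_mul, PowerSeries.map_X, mul_assoc] at hB
  have hB0 : B.coeff 0 = 0 := by
    have h1 := congrArg (PowerSeries.coeff 0) hB
    rw [PowerSeries.coeff_zero_X_mul, PowerSeries.coeff_map] at h1
    have : ((B.coeff 0 : ℤ) : ℂ) = 0 := by simpa using h1.symm
    exact_mod_cast this
  have hXB : (PowerSeries.X : PowerSeries ℤ) ∣ B := by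
    rw [PowerSeries.X_dvd_iff, ← PowerSeries.coeff_zero_eq_constantCoeff_apply]
    exact hB0
  obtain ⟨B', rfl⟩ := hXB
  rw [map_mul, PowerSeries.map_X] at hB
  have h2 : (u : PowerSeries ℤ).map (Int.castRingHom ℂ) * P = B'.map (Int.castRingHom ℂ) :=
    mul_left_cancel₀ PowerSeries.X_ne_zero hB
  refine ⟨(↑u⁻¹ : PowerSeries ℤ) * B', ?_⟩
  rw [map_mul, ← h2, ← mul_assoc, ← map_mul]
  simp

/-! ## The evaluation at `ρ` -/

/-- `E₄ ^ n` as a modular form of weight `k = 4 n`. -/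
def E4pow (n : ℕ) (k : ℤ) (hk : (n : ℤ) * 4 = k) : ModularForm 𝒮ℒ k :=
  ModularForm.mcast hk (E₄.pow n)

theorem E4pow_apply (n : ℕ) (k : ℤ) (hk : (n : ℤ) * 4 = k) (z : ℍ) :
    E4pow n k hk z = E₄ z ^ n := by
  simp [E4pow]

theorem qExpansion_E4pow (n : ℕ) (k : ℤ) (hk : (n : ℤ) * 4 = k) :
    qExpansion 1 (E4pow n k hk) = qExpansion 1 E₄ ^ n := by
  rw [E4pow, ModularForm.qExpansion_mcast,
    ModularForm.qExpansion_pow one_pos one_mem_strictPeriods_SL]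

theorem isIntPS_E4 : IsIntPS (qExpansion 1 E₄) :=
  ⟨_, Fermat.Agent.S22T.qExpansion_E4⟩

theorem coeff_zero_E4 : (qExpansion 1 E₄).coeff 0 = 1 :=
  E_qExpansion_coeff_zero (by norm_num) (by decide)

theorem deltaSeries_coeff_zero : Fermat.Agent.S22T.deltaSeries.coeff 0 = 0 :=
  Fermat.Agent.S22T.tau_zero

theorem deltaSeries_coeff_one : Fermat.Agent.S22T.deltaSeries.coeff 1 = 1 :=
  Fermat.Agent.S22T.tau_one

/-- Bundled form of `evRho_int`. -/
theorem evRho_bundled (ρ : ℍ) (hρ : E₄ ρ = 0) (j : ℕ) :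
    ∀ (k : ℤ) (_ : k = 12 * j) (F : ModularForm 𝒮ℒ k), IsIntPS (qExpansion 1 F) →
      ∃ m : ℤ, F ρ = (m : ℂ) * Δ ρ ^ j := by
  induction j with
  | zero =>
    intro k hk F hF
    simp only [Nat.cast_zero, mul_zero] at hk
    subst hk
    obtain ⟨c, hc⟩ := levelOne_weight_zero_const F
    have h1 : qExpansion 1 F = PowerSeries.C c := by
      have : (F : ℍ → ℂ) = c • ⇑(1 : ModularForm 𝒮ℒ 0) := by
        rw [hc]; ext z; simp
      rw [this, ModularForm.qExpansion_smul one_pos one_mem_strictPeriods_SL,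
        ModularForm.qExpansion_one, PowerSeries.smul_eq_C_mul, mul_one]
    obtain ⟨m, hm⟩ := (isIntPS_iff _).mp hF 0
    rw [h1, PowerSeries.coeff_zero_C] at hm
    exact ⟨m, by rw [hc, pow_zero, mul_one, ← hm]; rfl⟩
  | succ j ih =>
    intro k hk F hF
    obtain ⟨m₀, hm₀⟩ := (isIntPS_iff _).mp hF 0
    have hk4 : ((3 * (j + 1) : ℕ) : ℤ) * 4 = k := by rw [hk]; push_cast; ring
    set G : ModularForm 𝒮ℒ k := F - (m₀ : ℂ) • E4pow (3 * (j + 1)) k hk4 with hG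
    have hGq : qExpansion 1 G =
        qExpansion 1 F - PowerSeries.C (m₀ : ℂ) * qExpansion 1 E₄ ^ (3 * (j + 1)) := by
      have h1 : (G : ℍ → ℂ) = ⇑F - ⇑((m₀ : ℂ) • E4pow (3 * (j + 1)) k hk4) := rfl
      rw [h1, ModularForm.qExpansion_sub one_pos one_mem_strictPeriods_SL]
      have h2 : (⇑((m₀ : ℂ) • E4pow (3 * (j + 1)) k hk4) : ℍ → ℂ) =
          (m₀ : ℂ) • ⇑(E4pow (3 * (j + 1)) k hk4) := rfl
      rw [h2, ModularForm.qExpansion_smul one_pos one_mem_strictPeriods_SL, qExpansion_E4pow,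
        PowerSeries.smul_eq_C_mul]
    have hG0 : (qExpansion 1 G).coeff 0 = 0 := by
      rw [hGq, map_sub, PowerSeries.coeff_zero_eq_constantCoeff, map_mul, map_pow]
      simp only [← PowerSeries.coeff_zero_eq_constantCoeff, coeff_zero_E4]
      simp [hm₀]
    have hGint : IsIntPS (qExpansion 1 G) := by
      rw [hGq]
      exact hF.sub ((isIntPS_C_int m₀).mul (isIntPS_E4.pow _))
    set H : ModularForm 𝒮ℒ (k - 12) := CuspForm.discriminantEquiv (G.toCuspForm hG0) with hH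
    have hHint : IsIntPS (qExpansion 1 H) := by
      have := ModularForm.qExpansion_eq_qExpansion_discriminant_mul G hG0
      rw [← hH, Fermat.Agent.S22T.qExpansion_discriminant] at this
      refine isIntPS_of_mul _ deltaSeries_coeff_zero deltaSeries_coeff_one _ ?_
      rw [← this]
      exact hGint
    obtain ⟨m, hm⟩ := ih (k - 12) (by rw [hk]; push_cast; ring) H hHint
    have hGH : G ρ = Δ ρ * H ρ := by
      rw [hH, discriminant_mul_discriminantEquiv_apply]; rfl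
    have hFG : F ρ = (m₀ : ℂ) * E₄ ρ ^ (3 * (j + 1)) + G ρ := by
      have : G ρ = F ρ - (m₀ : ℂ) * E4pow (3 * (j + 1)) k hk4 ρ := rfl
      rw [this, E4pow_apply]; ring
    refine ⟨m, ?_⟩
    rw [hFG, hGH, hm, hρ, zero_pow (by omega)]
    ring

/-- Integrality of `H ↦ H(ρ)/Δ(ρ)^j` on level one forms of weight `12 j` with integral
`q`-expansion (basis `Δ^i E₄^{3(j-i)}`, `E₄(ρ) = 0`). -/
theorem evRho_int (ρ : ℍ) (hρ : (E₄ : ℍ → ℂ) ρ = 0) (j : ℕ) {H : ℍ → ℂ}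
    (hH : H ∈ MF (⊤ : Subgroup SL(2, ℤ)) (12 * j)) (hint : IntAll H) :
    ∃ m : ℤ, H ρ = (m : ℂ) * (Δ : ℍ → ℂ) ρ ^ j := by
  obtain ⟨F, rfl⟩ := Fermat.Agent.S20.C0h516.mem_MF_top_iff_exists.mp hH
  exact evRho_bundled ρ hρ j _ rfl F ((isIntPS_iff _).mpr hint)

/-! ## Ramanujan's `τ` -/

theorem mem_Gamma0_one (γ : SL(2, ℤ)) : γ ∈ Gamma0 1 := by
  rw [Gamma0_mem]
  exact Subsingleton.elim _ _

theorem discriminant_mem_SF_top : (Δ : ℍ → ℂ) ∈ SF (⊤ : Subgroup SL(2, ℤ)) 12 :=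
  Fermat.Agent.S20.C0h516.mem_SF_top_iff_exists.mpr ⟨CuspForm.discriminant, rfl⟩

/-- The Hecke operator `T_p` maps `Δ` to a level one cusp form. -/
theorem heckeT_discriminant_mem (p : ℕ) (hp : p.Prime) :
    heckeT 12 p (Δ : ℍ → ℂ) ∈ SF (⊤ : Subgroup SL(2, ℤ)) 12 := by
  have hpN : ¬ p ∣ 1 := fun h => hp.one_lt.ne' (Nat.dvd_one.mp h)
  have h1 : (Δ : ℍ → ℂ) ∈ SF (Gamma0 1) 12 := by
    obtain ⟨a, b, c⟩ := discriminant_mem_SF_top
    exact ⟨a, fun γ _ => b γ (Subgroup.mem_top _), c⟩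
  obtain ⟨g, hg⟩ := Fermat.Agent.S20.C0h516.mem_SF_iff_exists.mp h1
  have h2 := Fermat.Agent.S20.C0h516.coe_mem_SF (CuspForm.heckeTLin 12 hp hpN g)
  rw [CuspForm.coe_heckeTLin_apply, hg] at h2
  obtain ⟨a, b, c⟩ := h2
  exact ⟨a, fun γ _ => b γ (mem_Gamma0_one γ), c⟩

theorem heckeT_discriminant (p : ℕ) (hp : p.Prime) :
    ∃ c : ℂ, heckeT 12 p (Δ : ℍ → ℂ) = c • (Δ : ℍ → ℂ) := by
  obtain ⟨g, hg⟩ := Fermat.Agent.S20.C0h516.mem_SF_top_iff_exists.mp (heckeT_discriminant_mem p hp)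
  obtain ⟨c, hc⟩ := CuspForm.exists_smul_discriminant_of_weight_eq_twelve g
  refine ⟨c, ?_⟩
  rw [← hg, ← hc]
  rfl

theorem qCoeff_discriminant (n : ℕ) :
    qCoeff (Δ : ℍ → ℂ) n = (Fermat.Agent.S22T.tau n : ℂ) :=
  Fermat.Agent.S22T.qExpansion_discriminant_coeff n

theorem tau_prime_sq (p : ℕ) (hp : p.Prime) :
    Fermat.Agent.S22T.tau (p ^ 2) = Fermat.Agent.S22T.tau p ^ 2 - (p : ℤ) ^ 11 := by
  obtain ⟨c, hc⟩ := heckeT_discriminant p hp
  have hq : ∀ n, qCoeff (heckeT 12 p (Δ : ℍ → ℂ)) n =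
      coeffHeckeT 12 p (qCoeff (Δ : ℍ → ℂ)) n := fun n =>
    ModularFormClass.qCoeff_heckeT CuspForm.discriminant one_mem_strictPeriods_SL hp.ne_zero n
  have hs : ∀ n, qCoeff (c • (Δ : ℍ → ℂ)) n = c * qCoeff (Δ : ℍ → ℂ) n := fun n => by
    have h := ModularForm.qExpansion_smul (f := CuspForm.discriminant) one_pos
      one_mem_strictPeriods_SL c
    rw [CuspForm.coe_discriminant] at h
    rw [qCoeff, h, qCoeff]
    simp
  have e1 := hq 1
  rw [hc, hs, coeffHeckeT_of_not_dvd 12 (fun h => hp.one_lt.ne' (Nat.dvd_one.mp h)), one_mul,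
    qCoeff_discriminant, qCoeff_discriminant, Fermat.Agent.S22T.tau_one] at e1
  have e2 := hq p
  rw [hc, hs, coeffHeckeT_of_dvd 12 (dvd_refl p), Nat.div_self hp.pos,
    qCoeff_discriminant, qCoeff_discriminant, qCoeff_discriminant,
    Fermat.Agent.S22T.tau_one] at e2
  have hc' : c = (Fermat.Agent.S22T.tau p : ℂ) := by simpa using e1
  rw [hc', ← pow_two] at e2
  have e3 : ((Fermat.Agent.S22T.tau (p ^ 2) : ℤ) : ℂ) =
      ((Fermat.Agent.S22T.tau p ^ 2 - (p : ℤ) ^ 11 : ℤ) : ℂ) := by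
    rw [pow_two p]
    push_cast
    have h11 : ((p : ℂ) ^ ((12 : ℤ) - 1)) = (p : ℂ) ^ 11 := by
      norm_num
    rw [h11] at e2
    push_cast at e2
    linear_combination -e2
  exact_mod_cast e3

/-- Ramanujan's `τ` is integral, `τ(0) = 0`, `τ(1) = 1`, and `τ(p²) = τ(p)² - p¹¹`. -/
theorem exists_tau : ∃ τ : ℕ → ℤ, (∀ n, qCoeff (Δ : ℍ → ℂ) n = (τ n : ℂ)) ∧ τ 0 = 0 ∧ τ 1 = 1 ∧
    ∀ p : ℕ, p.Prime → τ (p ^ 2) = τ p ^ 2 - (p : ℤ) ^ 11 :=
  ⟨Fermat.Agent.S22T.tau, qCoeff_discriminant, Fermat.Agent.S22T.tau_zero,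
    Fermat.Agent.S22T.tau_one, tau_prime_sq⟩

end Fermat.Agent.S16.H547
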